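import Fermat.Agent.Selmer.Field

/-!
# Selmer's cubic has no rational points

`3x³ + 4y³ + 5z³ = 0` has only the zero solution in rational numbers, by a descent in `ℚ(∛6)` on
`X³ + 6Y³ = 10Z³`.
-/

set_option autoImplicit false

noncomputable section

open NumberField

namespace FA.Selmer

/-- The coefficient of `α²` in `(e₀ + e₁ α + e₂ α²) (A + B α + C α²)³`. -/
def coeffTwo (e₀ e₁ e₂ A B C : ℤ) : ℤ :=
  e₀ * (3 * A ^ 2 * C + 3 * A * B ^ 2 + 18 * B * C ^ 2) +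
    e₁ * (3 * A ^ 2 * B + 18 * A * C ^ 2 + 18 * B ^ 2 * C) +
      e₂ * (A ^ 3 + 6 * B ^ 3 + 36 * C ^ 3 + 36 * A * B * C)

/-- No nonzero cube is carried by a multiplier with `3 ∤ e₂` into the plane `1, α`. -/
theorem coeffTwo_ne_zero {e₀ e₁ e₂ : ℤ} (he : ¬ (3 : ℤ) ∣ e₂) : ∀ n : ℕ, ∀ A B C : ℤ,
    A.natAbs + B.natAbs + C.natAbs ≤ n → coeffTwo e₀ e₁ e₂ A B C = 0 →
    A = 0 ∧ B = 0 ∧ C = 0 := by
  intro n
  induction n using Nat.strong_induction_on with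
  | _ n ih =>
    intro A B C hn h
    have dvd3 : ∀ {a k : ℤ}, e₂ * a ^ 3 = 3 * k → ∃ b, a = 3 * b := fun {a k} e =>
      Int.prime_three.dvd_of_dvd_pow ((Int.prime_three.dvd_mul.mp ⟨k, e⟩).resolve_left he)
    simp only [coeffTwo] at h
    obtain ⟨a, rfl⟩ := dvd3 (a := A) (k := -(e₀ * (A ^ 2 * C + A * B ^ 2 + 6 * B * C ^ 2) +
      e₁ * (A ^ 2 * B + 6 * A * C ^ 2 + 6 * B ^ 2 * C) +
      e₂ * (2 * B ^ 3 + 12 * C ^ 3 + 12 * A * B * C))) (by linear_combination h)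
    obtain ⟨b, rfl⟩ := dvd3 (a := B) (k := e₂ * B ^ 3 +
      (e₀ * (3 * a ^ 2 * C + a * B ^ 2 + 2 * B * C ^ 2) +
        e₁ * (3 * a ^ 2 * B + 6 * a * C ^ 2 + 2 * B ^ 2 * C) +
        e₂ * (3 * a ^ 3 + 4 * C ^ 3 + 12 * a * B * C)))
      (mul_left_cancel₀ (show (3 : ℤ) ≠ 0 by norm_num) (by linear_combination -h))
    obtain ⟨c, rfl⟩ := dvd3 (a := C) (k := -(e₀ * (a ^ 2 * C + 3 * a * b ^ 2 + 2 * b * C ^ 2) +
      e₁ * (3 * a ^ 2 * b + 2 * a * C ^ 2 + 6 * b ^ 2 * C) +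
      e₂ * (a ^ 3 + 6 * b ^ 3 + C ^ 3 + 12 * a * b * C))) (by
        refine mul_left_cancel₀ (show (9 : ℤ) ≠ 0 by norm_num) ?_
        linear_combination h)
    by_cases h0 : a = 0 ∧ b = 0 ∧ c = 0
    · obtain ⟨rfl, rfl, rfl⟩ := h0; simp
    · have := ih (a.natAbs + b.natAbs + c.natAbs) (by omega) a b c le_rfl (by
        refine mul_left_cancel₀ (show (27 : ℤ) ≠ 0 by norm_num) ?_
        simp only [coeffTwo]
        linear_combination h)
      exact absurd this h0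

/-- The multiple of a nonzero cube is outside the plane of `1` and `α`. -/
theorem ne_mul_cube {e₀ e₁ e₂ : ℤ} (he : ¬ (3 : ℤ) ∣ e₂) {γ : K} (hγ : γ ≠ 0) (X Y : ℚ) :
    el X Y 0 ≠ el e₀ e₁ e₂ * γ ^ 3 := by
  intro h
  obtain ⟨x, y, z, rfl⟩ := exists_el γ
  rw [pow_three, el_mul, el_mul, el_mul] at h
  obtain ⟨-, -, h2⟩ := el_inj h
  set D : ℤ := (x.den : ℤ) * y.den * z.den with hD
  have hD0 : (D : ℚ) ≠ 0 := by
    rw [hD]; exact_mod_cast by simp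
  obtain ⟨a, ha⟩ : ∃ a : ℤ, (a : ℚ) = x * D :=
    ⟨x.num * (y.den * z.den), by rw [hD]; push_cast; rw [← Rat.mul_den_eq_num x]; ring⟩
  obtain ⟨b, hb⟩ : ∃ b : ℤ, (b : ℚ) = y * D :=
    ⟨y.num * (x.den * z.den), by rw [hD]; push_cast; rw [← Rat.mul_den_eq_num y]; ring⟩
  obtain ⟨c, hc⟩ : ∃ c : ℤ, (c : ℚ) = z * D :=
    ⟨z.num * (x.den * y.den), by rw [hD]; push_cast; rw [← Rat.mul_den_eq_num z]; ring⟩
  obtain ⟨ra, rb, rc⟩ := coeffTwo_ne_zero (e₀ := e₀) (e₁ := e₁) he _ a b c le_rfl (by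
    have : (coeffTwo e₀ e₁ e₂ a b c : ℚ) = 0 := by
      simp only [coeffTwo]; push_cast; rw [ha, hb, hc]
      linear_combination -(D : ℚ) ^ 3 * h2
    exact_mod_cast this)
  subst ra rb rc
  simp only [Int.cast_zero] at ha hb hc
  apply hγ
  rw [(mul_eq_zero.mp ha.symm).resolve_right hD0, (mul_eq_zero.mp hb.symm).resolve_right hD0,
    (mul_eq_zero.mp hc.symm).resolve_right hD0]
  simp [el]

theorem not_dvd_coprime {q : 𝓞 K} (hq : Prime q) {m n : ℤ} (h : IsCoprime m n)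
    (hm : q ∣ (m : 𝓞 K)) (hn : q ∣ (n : 𝓞 K)) : False :=
  hq.not_isUnit ((h.map (Int.castRingHom (𝓞 K))).isUnit_of_dvd' hm hn)

theorem not_dvd_of_norm {π w : 𝓞 K} {p : ℤ} (hp : (p : ℤ) ∣ Algebra.norm ℤ π)
    (h : ¬ p ∣ Algebra.norm ℤ w) : ¬ π ∣ w :=
  fun hd => h (hp.trans (map_dvd _ hd))

/-- The equation `X³ + 6Y³ = 10Z³` has no solution with coprime `X` and `Y`. -/
theorem no_coprime_solution {X Y Z : ℤ} (hco : IsCoprime X Y)
    (h : X ^ 3 + 6 * Y ^ 3 = 10 * Z ^ 3) : False := by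
  have hndvd : ∀ {p : ℤ}, Prime p → p ∣ X → p ∣ Y → False := fun hp hx hy =>
    hp.not_isUnit (hco.isUnit_of_dvd' hx hy)
  have p5 : Prime (5 : ℤ) := by norm_num [Int.prime_iff_natAbs_prime]
  have hX2 : (2 : ℤ) ∣ X := Int.prime_two.dvd_of_dvd_pow (n := 3)
    ⟨5 * Z ^ 3 - 3 * Y ^ 3, by linear_combination h⟩
  have hY2 : ¬ (2 : ℤ) ∣ Y := hndvd Int.prime_two hX2
  have hZ2 : ¬ (2 : ℤ) ∣ Z := fun ⟨z, hz⟩ => hY2 <| Int.prime_two.dvd_of_dvd_pow (n := 3) <| by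
    obtain ⟨x, hx⟩ := hX2
    subst hx hz
    have : (2 : ℤ) ∣ 3 * Y ^ 3 := ⟨20 * z ^ 3 - 2 * x ^ 3, by linarith⟩
    exact (Int.prime_two.dvd_mul.mp this).resolve_left (by decide)
  have hX3 : ¬ (3 : ℤ) ∣ X := fun ⟨x, hx⟩ => by
    subst hx
    obtain ⟨z, rfl⟩ : (3 : ℤ) ∣ Z := Int.prime_three.dvd_of_dvd_pow (n := 3)
      ((Int.prime_three.dvd_mul.mp (⟨9 * x ^ 3 + 2 * Y ^ 3, by linear_combination -h⟩ :
        (3 : ℤ) ∣ 10 * Z ^ 3)).resolve_left (by decide))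
    refine hndvd Int.prime_three ⟨x, rfl⟩ (Int.prime_three.dvd_of_dvd_pow (n := 3) ?_)
    exact (Int.prime_three.dvd_mul.mp (⟨30 * z ^ 3 - 3 * x ^ 3, by linarith⟩ :
      (3 : ℤ) ∣ 2 * Y ^ 3)).resolve_left (by decide)
  have hZ3 : ¬ (3 : ℤ) ∣ Z := fun ⟨z, hz⟩ => hX3 <| Int.prime_three.dvd_of_dvd_pow (n := 3) <| by
    exact ⟨90 * z ^ 3 - 2 * Y ^ 3, by rw [hz] at h; linear_combination h⟩
  have hXY5 : (5 : ℤ) ∣ X + Y := by
    have key : ∀ a b : ZMod 5, a ^ 3 + 6 * b ^ 3 = 0 → a + b = 0 := by decide +kernel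
    refine (ZMod.intCast_zmod_eq_zero_iff_dvd _ 5).mp ?_
    push_cast
    refine key _ _ ?_
    have := congrArg (Int.cast : ℤ → ZMod 5) h
    push_cast at this
    rw [this, show (10 : ZMod 5) = 0 by decide, zero_mul]
  -- `X + α Y` is divisible by the primes of norms `2` and `5`
  set a := elO X Y 0 with ha
  set b := elO (X ^ 2) (-(X * Y)) (Y ^ 2) with hb
  have hab : a * b = 10 * (Z : 𝓞 K) ^ 3 := by
    have : elO (X ^ 3 + 6 * Y ^ 3) 0 0 = 10 * (Z : 𝓞 K) ^ 3 := by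
      rw [h, ← elO_const]; push_cast; rfl
    rw [ha, hb, elO_mul, ← this]
    congr 1 <;> ring
  have h2a : piTwo ∣ a := by
    have e : a = ((X + 2 * Y : ℤ) : 𝓞 K) + (Y : 𝓞 K) * piTwo := by
      simp [ha, piTwo, elO]; ring
    have h2 : piTwo ∣ (2 : 𝓞 K) := ⟨piTwo ^ 2 * -((epsU⁻¹ : (𝓞 K)ˣ) : 𝓞 K), by
      rw [← mul_assoc, ← pow_succ', piTwo_cube]; simp⟩
    obtain ⟨x, hx⟩ := hX2
    rw [e, hx]
    refine dvd_add ?_ (dvd_mul_left _ _)
    rw [← mul_add]; push_cast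
    exact dvd_mul_of_dvd_left h2 _
  have h5a : piFive ∣ a := by
    have e : a = ((X + Y : ℤ) : 𝓞 K) + (Y : 𝓞 K) * piFive := by
      simp [ha, piFive, elO]; ring
    obtain ⟨k, hk⟩ := hXY5
    rw [e, hk]
    refine dvd_add ?_ (dvd_mul_left _ _)
    push_cast
    rw [← piFive_mul, mul_assoc]
    exact dvd_mul_right _ _
  obtain ⟨w, hw⟩ := h2a
  obtain ⟨a', ha'⟩ : piFive ∣ w := (prime_piFive.dvd_or_dvd (hw ▸ h5a)).resolve_left
    (not_dvd_of_norm (p := 5) (by rw [piFive, norm_elO]; norm_num)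
      (by rw [piTwo, norm_elO]; norm_num))
  rw [ha', ← mul_assoc] at hw
  have hN : Algebra.norm ℤ a' = -Z ^ 3 := by
    have e := congrArg (Algebra.norm ℤ) hw
    rw [map_mul, map_mul, ha, piTwo, piFive, norm_elO, norm_elO, norm_elO] at e
    linarith
  have h2a' : ¬ piTwo ∣ a' := not_dvd_of_norm (p := 2) (by rw [piTwo, norm_elO]; norm_num)
    (by rw [hN, dvd_neg]; exact fun hd => hZ2 (Int.prime_two.dvd_of_dvd_pow hd))
  have h3a' : ¬ piThree ∣ a' := not_dvd_of_norm (p := 3) (by rw [piThree, norm_elO]; norm_num)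
    (by rw [hN, dvd_neg]; exact fun hd => hZ3 (Int.prime_three.dvd_of_dvd_pow hd))
  have ha'a : a' ∣ a := Dvd.intro_left _ hw.symm
  -- a common prime of `a'` and `β π₂²`, or of `a'` and `X² - XY α + Y² α²`
  have hassoc : ∀ {q π r : 𝓞 K}, Prime q → Prime π → (∃ u : (𝓞 K)ˣ, π ^ 3 = r * u) → q ∣ r →
      Associated q π := fun hq hπ ⟨u, hu⟩ hr =>
    hq.associated_of_dvd hπ (hq.dvd_of_dvd_pow (hu ▸ hr.trans (dvd_mul_right _ _)))
  have h6 : ∀ {q : 𝓞 K}, Prime q → q ∣ a' → q ∣ (2 : 𝓞 K) ∨ q ∣ (3 : 𝓞 K) → False := by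
    rintro q hq hqa (hr | hr)
    · exact h2a' ((hassoc hq prime_piTwo (r := 2) ⟨-epsU, by rw [piTwo_cube]; simp⟩ hr).dvd_iff_dvd_left.mp hqa)
    · exact h3a' ((hassoc hq prime_piThree ⟨_, piThree_cube⟩ hr).dvd_iff_dvd_left.mp hqa)
  have ha'0 : a' ≠ 0 := fun e => h2a' (e ▸ dvd_zero _)
  have hc : IsCoprime a' (elO 1 1 1 * piTwo ^ 2) := by
    refine (WfDvdMonoid.isRelPrime_of_no_irreducible_factors (fun e => ha'0 e.1)
      fun q hqi hqa hqc => ?_).isCoprime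
    have hq := hqi.prime
    rcases hq.dvd_or_dvd hqc with hd | hd
    · have h5 : q ∣ ((5 : ℤ) : 𝓞 K) := by
        push_cast; rw [← piFive_mul]; exact dvd_mul_of_dvd_right hd _
      have hqa0 : q ∣ a := hqa.trans ha'a
      have hn : q ∣ ((X ^ 2 - X * Y + Y ^ 2 : ℤ) : 𝓞 K) := by
        have e : ((X ^ 2 - X * Y + Y ^ 2 : ℤ) : 𝓞 K) = (Y : 𝓞 K) ^ 2 * elO 1 1 1 -
            a * elO (Y - X) Y 0 := by
          rw [ha]; simp [elO]; ring
        rw [e]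
        exact dvd_sub (dvd_mul_of_dvd_right hd _) (dvd_mul_of_dvd_left hqa0 _)
      refine not_dvd_coprime hq (p5.coprime_iff_not_dvd.mpr fun hdv => ?_) h5 hn
      have hy : (5 : ℤ) ∣ Y := p5.dvd_of_dvd_pow (n := 2) <| by
        obtain ⟨k, hk⟩ := hXY5
        obtain ⟨l, hl⟩ := hdv
        have : (5 : ℤ) ∣ 3 * Y ^ 2 := ⟨l - k * (X + Y) + 3 * k * Y, by
          linear_combination hl - (X + Y - 3 * Y) * hk⟩
        exact (p5.dvd_mul.mp this).resolve_left (by decide)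
      exact hndvd p5 (by simpa using dvd_sub hXY5 hy) hy
    · exact h2a' ((hq.associated_of_dvd prime_piTwo (hq.dvd_of_dvd_pow hd)).dvd_iff_dvd_left.mp hqa)
  have hb' : IsCoprime a' b := by
    refine (WfDvdMonoid.isRelPrime_of_no_irreducible_factors (fun e => ha'0 e.1)
      fun q hqi hqa hqb => ?_).isCoprime
    have hq := hqi.prime
    have hqa0 : q ∣ a := hqa.trans ha'a
    have hX : q ∣ 3 * (X : 𝓞 K) ^ 2 := by
      have e : 3 * (X : 𝓞 K) ^ 2 = b + elO (2 * X) (-Y) 0 * a := by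
        rw [ha, hb]; simp [elO]; ring
      rw [e]
      exact dvd_add hqb (dvd_mul_of_dvd_right hqa0 _)
    rcases hq.dvd_or_dvd hX with hd | hd
    · exact h6 hq hqa (Or.inr hd)
    have hqX := hq.dvd_of_dvd_pow hd
    have hY : q ∣ (Y : 𝓞 K) * alphaO := by
      have e : (Y : 𝓞 K) * alphaO = a - (X : 𝓞 K) := by simp [ha, elO]
      rw [e]
      exact dvd_sub hqa0 hqX
    rcases hq.dvd_or_dvd hY with hd | hd
    · exact not_dvd_coprime hq hco hqX hd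
    · have : q ∣ (2 : 𝓞 K) * 3 := by
        rw [show (2 : 𝓞 K) * 3 = alphaO ^ 3 by rw [alphaO_eq]; norm_num]
        exact dvd_pow hd three_ne_zero
      exact h6 hq hqa (hq.dvd_or_dvd this)
  set u : (𝓞 K)ˣ := -epsU⁻¹
  have hu : piTwo ^ 3 * (u : 𝓞 K) = 2 := by rw [piTwo_cube]; simp [u]
  have hprod : a' * b = elO 1 1 1 * piTwo ^ 2 * ((u : 𝓞 K) * (Z : 𝓞 K) ^ 3) := by
    refine mul_left_cancel₀ (mul_ne_zero prime_piTwo.ne_zero prime_piFive.ne_zero) ?_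
    rw [← mul_assoc, ← hw, hab,
      show (10 : 𝓞 K) = 5 * 2 by norm_num, ← piFive_mul, ← hu]
    ring
  obtain ⟨b', hb''⟩ : elO 1 1 1 * piTwo ^ 2 ∣ b :=
    hc.symm.dvd_of_dvd_mul_left ⟨_, hprod⟩
  have hprod' : a' * (b' * ((u⁻¹ : (𝓞 K)ˣ) : 𝓞 K)) = (Z : 𝓞 K) ^ 3 := by
    have hne : elO 1 1 1 * piTwo ^ 2 ≠ 0 := mul_ne_zero
      (right_ne_zero_of_mul (piFive_mul ▸ by norm_num : piFive * elO 1 1 1 ≠ 0))
      (pow_ne_zero _ prime_piTwo.ne_zero)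
    rw [hb''] at hprod
    have e : a' * b' = (u : 𝓞 K) * (Z : 𝓞 K) ^ 3 :=
      mul_left_cancel₀ hne (by linear_combination hprod)
    rw [← mul_assoc, e, mul_comm, Units.inv_mul_cancel_left]
  have hab' : IsCoprime a' (b' * ((u⁻¹ : (𝓞 K)ˣ) : 𝓞 K)) :=
    (isCoprime_mul_unit_right_right (Units.isUnit _) _ _).mpr (hb'.of_isCoprime_of_dvd_right
      (Dvd.intro_left _ hb''.symm))
  obtain ⟨γ, v, hv⟩ := exists_associated_pow_of_mul_eq_pow' hab' hprod'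
  obtain ⟨i, η, hi, hη⟩ := unit_eq v
  have hfin : el X Y 0 =
      el 2 (-3) 1 * el 1 (-6) 3 ^ i * (((γ * (η : 𝓞 K) : 𝓞 K) : K)) ^ 3 := by
    have e : a = elO 2 (-3) 1 * elO 1 (-6) 3 ^ i * (γ * (η : 𝓞 K)) ^ 3 := by
      rw [hw, ← hv, hη, piTwo, piFive, elO_mul]
      push_cast [show ((epsU : (𝓞 K)ˣ) : 𝓞 K) = elO 1 (-6) 3 from rfl]
      ring
    have := congrArg (fun t : 𝓞 K => (t : K)) e
    simpa [ha, coe_elO] using this
  have hne : ((γ * (η : 𝓞 K) : 𝓞 K) : K) ≠ 0 := by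
    rw [Ne, RingOfIntegers.coe_eq_zero_iff]
    exact mul_ne_zero (fun e => ha'0 (by rw [← hv, e]; simp)) η.ne_zero
  interval_cases i
  · rw [pow_zero, mul_one] at hfin
    exact ne_mul_cube (e₀ := 2) (e₁ := -3) (e₂ := 1) (by norm_num) hne X Y (by push_cast; exact hfin)
  · rw [pow_one, el_mul] at hfin
    exact ne_mul_cube (e₀ := -88) (e₁ := 3) (e₂ := 25) (by norm_num) hne X Y
      (by norm_num at hfin ⊢; exact hfin)
  · rw [pow_two, el_mul, el_mul] at hfin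
    exact ne_mul_cube (e₀ := -934) (e₁ := 981) (e₂ := -257) (by norm_num) hne X Y
      (by norm_num at hfin ⊢; exact hfin)

/-- The equation `X³ + 6Y³ = 10Z³` has only the zero solution in integers. -/
theorem no_solution : ∀ n : ℕ, ∀ X Y Z : ℤ, X.natAbs + Y.natAbs ≤ n →
    X ^ 3 + 6 * Y ^ 3 = 10 * Z ^ 3 → X = 0 ∧ Y = 0 := by
  intro n
  induction n using Nat.strong_induction_on with
  | _ n ih =>
    intro X Y Z hn h
    by_contra hne
    by_cases hco : IsCoprime X Y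
    · exact no_coprime_solution hco h
    rw [Int.isCoprime_iff_gcd_eq_one] at hco
    obtain ⟨p, hp, hpd⟩ := Nat.exists_prime_and_dvd hco
    have hp' : Prime (p : ℤ) := Nat.prime_iff_prime_int.mp hp
    obtain ⟨x, rfl⟩ : (p : ℤ) ∣ X := Int.dvd_trans (Int.natCast_dvd_natCast.mpr hpd)
      (Int.gcd_dvd_left _ _)
    obtain ⟨y, rfl⟩ : (p : ℤ) ∣ Y := Int.dvd_trans (Int.natCast_dvd_natCast.mpr hpd)
      (Int.gcd_dvd_right _ _)
    obtain ⟨z, rfl⟩ : (p : ℤ) ∣ Z := by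
      by_contra hz
      have h3 : ((p : ℤ)) ^ 3 ∣ 10 :=
        ((hp'.coprime_iff_not_dvd.mpr hz).pow (m := 3) (n := 3)).dvd_of_dvd_mul_right
          ⟨x ^ 3 + 6 * y ^ 3, by linear_combination -h⟩
      have h3' : p ^ 3 ∣ 10 := by exact_mod_cast h3
      have hle := Nat.le_of_dvd (by norm_num) h3'
      have : p < 3 := by
        by_contra! hge
        have := Nat.pow_le_pow_left hge 3
        omega
      have := hp.two_le
      interval_cases p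
      norm_num at h3'
    have hp0 : (p : ℤ) ^ 3 ≠ 0 := pow_ne_zero _ hp'.ne_zero
    have h' : x ^ 3 + 6 * y ^ 3 = 10 * z ^ 3 := mul_left_cancel₀ hp0 (by linear_combination h)
    have hlt : x.natAbs + y.natAbs < n := by
      have h0 : x ≠ 0 ∨ y ≠ 0 := by
        by_contra! h0
        exact hne ⟨by simp [h0.1], by simp [h0.2]⟩
      rw [Int.natAbs_mul, Int.natAbs_mul, Int.natAbs_natCast, ← mul_add] at hn
      have h2 := hp.two_le
      have : 0 < x.natAbs + y.natAbs := by rcases h0 with h | h <;> have := Int.natAbs_pos.mpr h <;> omega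
      nlinarith
    obtain ⟨rfl, rfl⟩ := ih _ hlt x y z le_rfl h'
    simp at hne

end FA.Selmer

namespace FA.Summary

/-- **Selmer's cubic `3x³ + 4y³ + 5z³ = 0` has only the zero rational solution.** -/
theorem selmer_rational {x y z : ℚ} (h : 3 * x ^ 3 + 4 * y ^ 3 + 5 * z ^ 3 = 0) :
    x = 0 ∧ y = 0 ∧ z = 0 := by
  set D : ℤ := (x.den : ℤ) * y.den * z.den with hD
  have hD0 : (D : ℚ) ≠ 0 := by
    rw [hD]; exact_mod_cast by simp
  obtain ⟨a, ha⟩ : ∃ a : ℤ, (a : ℚ) = x * D :=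
    ⟨x.num * (y.den * z.den), by rw [hD]; push_cast; rw [← Rat.mul_den_eq_num x]; ring⟩
  obtain ⟨b, hb⟩ : ∃ b : ℤ, (b : ℚ) = y * D :=
    ⟨y.num * (x.den * z.den), by rw [hD]; push_cast; rw [← Rat.mul_den_eq_num y]; ring⟩
  obtain ⟨c, hc⟩ : ∃ c : ℤ, (c : ℚ) = z * D :=
    ⟨z.num * (x.den * y.den), by rw [hD]; push_cast; rw [← Rat.mul_den_eq_num z]; ring⟩
  have e : (2 * b) ^ 3 + 6 * a ^ 3 = 10 * (-c) ^ 3 := by
    have : (2 * (b : ℚ)) ^ 3 + 6 * (a : ℚ) ^ 3 = 10 * (-(c : ℚ)) ^ 3 := by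
      rw [ha, hb, hc]; linear_combination 2 * (D : ℚ) ^ 3 * h
    exact_mod_cast this
  obtain ⟨hb0, ha0⟩ := FA.Selmer.no_solution _ (2 * b) a (-c) le_rfl e
  have hc0 : c = 0 := by
    rw [hb0, ha0] at e
    simpa using e.symm
  obtain rfl : b = 0 := by omega
  subst ha0 hc0
  simp only [Int.cast_zero] at ha hb hc
  exact ⟨(mul_eq_zero.mp ha.symm).resolve_right hD0, (mul_eq_zero.mp hb.symm).resolve_right hD0,
    (mul_eq_zero.mp hc.symm).resolve_right hD0⟩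

end FA.Summary

end
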