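import Mathlib.NumberTheory.NumberField.ClassNumber
import Mathlib.NumberTheory.NumberField.Units.DirichletTheorem
import Mathlib.NumberTheory.NumberField.Discriminant.Basic
import Mathlib.Algebra.Polynomial.SpecificDegree
import Mathlib.RingTheory.Ideal.Norm.AbsNorm
import Mathlib.FieldTheory.Finite.Basic
import Mathlib.Analysis.Real.Pi.Bounds
import Mathlib.Tactic.NormNum.Prime

/-!
# The field of the cube root of six

`K = ℚ(α)` with `α³ = 6`: class number one, and the units are `ε^i` times cubes for the unit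
`ε = 1 - 6α + 3α²`.
-/

set_option autoImplicit false
set_option linter.style.haveILetI false

noncomputable section

open Polynomial NumberField Module

namespace FA.Selmer

/-- The polynomial of `α`. -/
def fK : ℚ[X] := X ^ 3 - C 6

theorem fK_monic : fK.Monic := monic_X_pow_sub_C _ three_ne_zero

theorem natDegree_fK : fK.natDegree = 3 := natDegree_X_pow_sub_C

theorem fK_irreducible : Irreducible fK := by
  refine X_pow_sub_C_irreducible_of_prime Nat.prime_three fun b hb => ?_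
  have h : (6 : ℤ) * (b.den : ℤ) ^ 3 = b.num ^ 3 := by
    have : (6 : ℚ) * (b.den : ℚ) ^ 3 = (b.num : ℚ) ^ 3 := by
      rw [← Rat.mul_den_eq_num b, mul_pow, hb]
    exact_mod_cast this
  obtain ⟨c, hc⟩ := Int.prime_two.dvd_of_dvd_pow (a := b.num) (n := 3)
    (Dvd.intro (3 * (b.den : ℤ) ^ 3) (by linear_combination h))
  rw [hc] at h
  have h2 : (2 : ℤ) ∣ (b.den : ℤ) := Int.prime_two.dvd_of_dvd_pow (n := 3)
    ((Int.prime_two.dvd_mul.mp (⟨2 * c ^ 3, by linarith⟩ : (2 : ℤ) ∣ 3 * (b.den : ℤ) ^ 3)).resolve_left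
      (by decide))
  have h2' : 2 ∣ b.num.natAbs := Int.natCast_dvd.mp ⟨c, hc⟩
  exact absurd (Nat.dvd_gcd h2' (Int.natCast_dvd_natCast.mp h2)) (by rw [b.reduced]; decide)

instance fact_fK : Fact (Irreducible fK) := ⟨fK_irreducible⟩

/-- The cubic field. -/
abbrev K : Type := AdjoinRoot fK

/-- The cube root of six. -/
abbrev alpha : K := AdjoinRoot.root fK

instance charZero_K : CharZero K := charZero_of_injective_algebraMap (algebraMap ℚ K).injective

instance finiteDimensional_K : FiniteDimensional ℚ K :=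
  (AdjoinRoot.powerBasis fK_monic.ne_zero).finite

instance numberField_K : NumberField K := {}

theorem alpha_eq : alpha ^ 3 = 6 := by
  have h : aeval alpha fK = 0 := (AdjoinRoot.aeval_eq fK).trans AdjoinRoot.mk_self
  simpa [fK, sub_eq_zero, map_ofNat] using h

theorem finrank_K : finrank ℚ K = 3 := by
  rw [(AdjoinRoot.powerBasis fK_monic.ne_zero).finrank, AdjoinRoot.powerBasis_dim, natDegree_fK]

/-- The basis `1, α, α²`. -/
def basisK : Basis (Fin 3) ℚ K :=
  (AdjoinRoot.powerBasis fK_monic.ne_zero).basis.reindex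
    (finCongr (by rw [AdjoinRoot.powerBasis_dim, natDegree_fK]))

theorem basisK_apply (j : Fin 3) : basisK j = alpha ^ (j : ℕ) := by simp [basisK, alpha]

/-- The element `x + y α + z α²`. -/
def el (x y z : ℚ) : K := (x : K) + (y : K) * alpha + (z : K) * alpha ^ 2

theorem el_eq_sum (x y z : ℚ) : el x y z = ∑ i, ![x, y, z] i • basisK i := by
  simp [el, Fin.sum_univ_three, basisK_apply, Algebra.smul_def]

theorem el_inj {x y z x' y' z' : ℚ} (h : el x y z = el x' y' z') :
    x = x' ∧ y = y' ∧ z = z' := by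
  rw [el_eq_sum, el_eq_sum] at h
  have e : ∀ c : Fin 3 → ℚ, ⇑(basisK.repr (∑ i, c i • basisK i)) = c := fun c =>
    funext fun i => by rw [Basis.repr_sum_self]
  have := e ![x, y, z]
  rw [h, e] at this
  have h0 := congrFun this 0
  have h1 := congrFun this 1
  have h2 := congrFun this 2
  simp at h0 h1 h2
  exact ⟨h0.symm, h1.symm, h2.symm⟩

theorem exists_el (k : K) : ∃ x y z : ℚ, k = el x y z :=
  ⟨basisK.repr k 0, basisK.repr k 1, basisK.repr k 2, by
    conv_lhs => rw [← basisK.sum_repr k]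
    simp [el, Fin.sum_univ_three, basisK_apply, Algebra.smul_def]⟩

theorem el_mul (x y z x' y' z' : ℚ) : el x y z * el x' y' z' =
    el (x * x' + 6 * (y * z' + z * y')) (x * y' + y * x' + 6 * (z * z'))
      (x * z' + y * y' + z * x') := by
  simp only [el]
  push_cast
  linear_combination ((y : K) * z' + z * y' + z * z' * alpha) * alpha_eq

theorem leftMul_el (x y z : ℚ) : Algebra.leftMulMatrix basisK (el x y z) =
    !![x, 6 * z, 6 * y; y, x, 6 * z; z, y, x] := by
  ext i j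
  rw [Algebra.leftMulMatrix_eq_repr_mul, basisK_apply]
  have hcol : el x y z * alpha ^ (j : ℕ) =
      ∑ k, !![x, 6 * z, 6 * y; y, x, 6 * z; z, y, x] k j • basisK k := by
    fin_cases j <;> simp [el, Fin.sum_univ_three, basisK_apply, Algebra.smul_def]
    · linear_combination (z : K) * alpha_eq
    · linear_combination ((z : K) * alpha + y) * alpha_eq
  rw [hcol, Basis.repr_sum_self]

theorem norm_el (x y z : ℚ) :
    Algebra.norm ℚ (el x y z) = x ^ 3 + 6 * y ^ 3 + 36 * z ^ 3 - 18 * x * y * z := by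
  rw [Algebra.norm_eq_matrix_det basisK, leftMul_el, Matrix.det_fin_three]
  simp
  ring

theorem trace_el (x y z : ℚ) : Algebra.trace ℚ K (el x y z) = 3 * x := by
  rw [Algebra.trace_eq_matrix_trace basisK, leftMul_el, Matrix.trace_fin_three]
  simp
  ring

theorem isIntegral_alpha : IsIntegral ℤ alpha :=
  ⟨X ^ 3 - C 6, by monicity!, by simp [alpha_eq]⟩

/-- The cube root of six as an algebraic integer. -/
def alphaO : 𝓞 K := ⟨alpha, isIntegral_alpha⟩

@[simp] theorem coe_alphaO : (alphaO : K) = alpha := rfl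

theorem alphaO_eq : alphaO ^ 3 = 6 :=
  RingOfIntegers.ext (by simp [alpha_eq, map_ofNat])

/-- The integer `a + b α + c α²`. -/
def elO (a b c : ℤ) : 𝓞 K := (a : 𝓞 K) + (b : 𝓞 K) * alphaO + (c : 𝓞 K) * alphaO ^ 2

theorem coe_elO (a b c : ℤ) : ((elO a b c : 𝓞 K) : K) = el a b c := by
  simp [elO, el]

theorem norm_elO (a b c : ℤ) :
    Algebra.norm ℤ (elO a b c) = a ^ 3 + 6 * b ^ 3 + 36 * c ^ 3 - 18 * a * b * c := by
  have h := Algebra.coe_norm_int (elO a b c)
  rw [coe_elO, norm_el] at h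
  exact_mod_cast h

theorem elO_mul (a b c a' b' c' : ℤ) : elO a b c * elO a' b' c' =
    elO (a * a' + 6 * (b * c' + c * b')) (a * b' + b * a' + 6 * (c * c'))
      (a * c' + b * b' + c * a') := by
  simp only [elO]
  push_cast
  linear_combination ((b : 𝓞 K) * c' + c * b' + c * c' * alphaO) * alphaO_eq

theorem elO_const (a : ℤ) : (a : 𝓞 K) = elO a 0 0 := by simp [elO]

/-! ### The discriminant, the signature, the primes of small norm -/

theorem abs_discr_le : |discr K| ≤ 972 := by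
  classical
  set b : Fin 3 → K := fun j => alpha ^ (j : ℕ) with hb
  have hint : ∀ i, IsIntegral ℤ (b i) := fun i => isIntegral_alpha.pow _
  have hd : Algebra.discr ℚ b = -972 := by
    have hM : Algebra.traceMatrix ℚ b = !![3, 0, 0; 0, 0, 18; 0, 18, 0] := by
      ext i j
      have h0 : alpha ^ 0 = el 1 0 0 := by simp [el]
      have h1 : alpha ^ 1 = el 0 1 0 := by simp [el]
      have h2 : alpha ^ 2 = el 0 0 1 := by simp [el]
      have h3 : alpha ^ 3 = el 6 0 0 := by simp [el, alpha_eq]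
      have h4 : alpha ^ 4 = el 0 6 0 := by simp [el, pow_succ _ 3, alpha_eq]
      have t : ∀ n x y z, alpha ^ n = el x y z → Algebra.trace ℚ K (alpha ^ n) = 3 * x :=
        fun n x y z e => by rw [e, trace_el]
      have t0 := t 0 _ _ _ h0
      have t1 := t 1 _ _ _ h1
      rw [pow_zero, mul_one] at t0
      rw [pow_one, mul_zero] at t1
      rw [Algebra.traceMatrix_apply, Algebra.traceForm_apply, hb, ← pow_add]
      fin_cases i <;> fin_cases j <;>
        norm_num [t0, t1, t 2 _ _ _ h2, t 3 _ _ _ h3, t 4 _ _ _ h4]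
    rw [Algebra.discr_def, hM, Matrix.det_fin_three]
    simp
    norm_num
  let e : Fin 3 ≃ Free.ChooseBasisIndex ℤ (𝓞 K) := Fintype.equivOfCardEq (by
    rw [Fintype.card_fin, ← finrank_K, ← Module.finrank_eq_card_basis (integralBasis K)])
  let bas := (integralBasis K).reindex e.symm
  let P₀ : Matrix (Fin 3) (Fin 3) ℤ := fun i j =>
    (RingOfIntegers.basis K).repr (⟨b j, hint j⟩ : 𝓞 K) (e i)
  have hP : bas.toMatrix b = P₀.map (algebraMap ℤ ℚ) := by
    ext i j
    rw [Basis.toMatrix_apply, Basis.repr_reindex_apply, Matrix.map_apply, e.symm_symm]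
    exact integralBasis_repr_apply K (⟨b j, hint j⟩ : 𝓞 K) (e i)
  have h := Algebra.discr_of_matrix_vecMul (A := ℚ) (bas : Fin 3 → K) (bas.toMatrix b)
  rw [Basis.toMatrix_map_vecMul, Basis.coe_reindex, e.symm_symm,
    show (integralBasis K : _ → K) ∘ e = (integralBasis K) ∘ ⇑e.symm.symm from rfl,
    Algebra.discr_reindex, ← coe_discr, hP,
    show P₀.map (algebraMap ℤ ℚ) = (algebraMap ℤ ℚ).mapMatrix P₀ from rfl, ← RingHom.map_det,
    hd] at h
  have h' : (-972 : ℤ) = P₀.det ^ 2 * discr K := by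
    rw [eq_intCast] at h
    exact_mod_cast h
  exact Int.le_of_dvd (by norm_num) ((abs_dvd _ _).mpr ⟨-P₀.det ^ 2, by linear_combination -h'⟩)

theorem nrRealPlaces_le_one : InfinitePlace.nrRealPlaces K ≤ 1 := by
  classical
  rw [InfinitePlace.nrRealPlaces, Fintype.card_le_one_iff]
  rintro ⟨w, hw⟩ ⟨w', hw'⟩
  apply Subtype.ext
  set σ := InfinitePlace.embedding_of_isReal hw with hσ
  set τ := InfinitePlace.embedding_of_isReal hw' with hτ
  have he : σ alpha = τ alpha := (Odd.pow_inj (show Odd 3 by decide)).mp (by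
    rw [← map_pow, ← map_pow, alpha_eq, map_ofNat, map_ofNat])
  refine (InfinitePlace.mk_embedding w).symm.trans ((congrArg InfinitePlace.mk ?_).trans
    (InfinitePlace.mk_embedding w'))
  refine RingHom.ext fun k => ?_
  obtain ⟨x, y, z, rfl⟩ := exists_el k
  have e1 : ((σ alpha : ℝ) : ℂ) = w.embedding alpha :=
    InfinitePlace.embedding_of_isReal_apply hw alpha
  have e2 : ((τ alpha : ℝ) : ℂ) = w'.embedding alpha :=
    InfinitePlace.embedding_of_isReal_apply hw' alpha
  simp only [el, map_add, map_mul, map_pow, map_ratCast, ← e1, ← e2, he]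

theorem signature : InfinitePlace.nrRealPlaces K = 1 ∧ InfinitePlace.nrComplexPlaces K = 1 := by
  have h := InfinitePlace.card_add_two_mul_card_eq_rank K
  have := nrRealPlaces_le_one
  rw [finrank_K] at h
  omega

theorem prime_elO {a b c n : ℤ} (hn : n.natAbs.Prime)
    (h : a ^ 3 + 6 * b ^ 3 + 36 * c ^ 3 - 18 * a * b * c = n) : Prime (elO a b c) := by
  rw [← norm_elO] at h
  have hπ : elO a b c ≠ 0 := fun e => by
    rw [e, Algebra.norm_zero] at h
    rw [← h] at hn
    exact Nat.not_prime_zero hn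
  rw [← Ideal.span_singleton_prime hπ]
  refine Ideal.isPrime_of_irreducible_absNorm ?_
  rw [Ideal.absNorm_span_singleton, h]
  exact hn.prime.irreducible

theorem eq_span_of_mem {P : Ideal (𝓞 K)} (hP : P.IsPrime) {π : 𝓞 K} (hπ : Prime π) (h : π ∈ P) :
    Submodule.IsPrincipal P := by
  have hmax : (Ideal.span {π}).IsMaximal :=
    ((Ideal.span_singleton_prime hπ.ne_zero).mpr hπ).isMaximal
      (by simpa [Ideal.span_singleton_eq_bot] using hπ.ne_zero)
  exact ⟨⟨π, (hmax.eq_of_le hP.ne_top ((Ideal.span_singleton_le_iff_mem _).mpr h)).symm⟩⟩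

/-- The prime over `2`. -/
def piTwo : 𝓞 K := elO (-2) 1 0

/-- The prime over `3`. -/
def piThree : 𝓞 K := elO 3 2 1

/-- The prime of norm `5`. -/
def piFive : 𝓞 K := elO (-1) 1 0

theorem prime_piTwo : Prime piTwo := prime_elO (n := -2) (by norm_num) (by norm_num)

theorem prime_piThree : Prime piThree := prime_elO (n := 3) (by norm_num) (by norm_num)

theorem prime_piFive : Prime piFive := prime_elO (n := 5) (by norm_num) (by norm_num)

/-- The unit `1 - 6α + 3α²`. -/
def epsU : (𝓞 K)ˣ :=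
  Units.mkOfMulEqOne (elO 1 (-6) 3) (elO 109 60 33) (by rw [elO_mul]; simp [elO])

theorem piTwo_cube : piTwo ^ 3 = -2 * (epsU : 𝓞 K) := by
  rw [pow_three, piTwo, elO_mul, elO_mul, show (-2 : 𝓞 K) = elO (-2) 0 0 by simp [elO],
    show ((epsU : (𝓞 K)ˣ) : 𝓞 K) = elO 1 (-6) 3 from rfl, elO_mul]
  norm_num

theorem piThree_cube : piThree ^ 3 = 3 * (epsU⁻¹ : (𝓞 K)ˣ) := by
  rw [pow_three, piThree, elO_mul, elO_mul, show (3 : 𝓞 K) = elO 3 0 0 by simp [elO],
    show ((epsU⁻¹ : (𝓞 K)ˣ) : 𝓞 K) = elO 109 60 33 from rfl, elO_mul]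
  norm_num

theorem piFive_mul : piFive * elO 1 1 1 = 5 := by
  rw [piFive, elO_mul]
  norm_num [elO]

theorem isPrincipalIdealRing_K : IsPrincipalIdealRing (𝓞 K) := by
  refine RingOfIntegers.isPrincipalIdealRing_of_isPrincipal_of_norm_le_of_isPrime fun I hI hN => ?_
  have hlt : (4 / Real.pi) ^ InfinitePlace.nrComplexPlaces K *
      ((Nat.factorial (finrank ℚ K)) / (finrank ℚ K : ℝ) ^ (finrank ℚ K) * √|(discr K : ℝ)|) < 9 := by
    rw [signature.2, finrank_K, pow_one, show Nat.factorial 3 = 6 from rfl]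
    have hs : √|(discr K : ℝ)| ≤ 312 / 10 := by
      rw [← Real.sqrt_sq (show (0 : ℝ) ≤ 312 / 10 by norm_num)]
      refine Real.sqrt_le_sqrt ?_
      rw [← Int.cast_abs]
      exact le_trans (Int.cast_le.2 abs_discr_le) (by norm_num)
    have hpi : 4 / Real.pi < 1275 / 1000 := by
      rw [div_lt_div_iff₀ Real.pi_pos (by norm_num)]
      nlinarith [Real.pi_gt_d2]
    calc _ ≤ (1275 / 1000 : ℝ) * (6 / 3 ^ 3 * (312 / 10)) := by push_cast; gcongr
      _ < 9 := by norm_num
  set n := Ideal.absNorm (I : Ideal (𝓞 K)) with hn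
  have hn9 : n < 9 := by
    have : ((n : ℕ) : ℝ) < ((9 : ℕ) : ℝ) := by push_cast; exact hN.trans_lt hlt
    exact_mod_cast this
  have hn0 : n ≠ 0 := by rw [hn, Ne, Ideal.absNorm_eq_zero_iff]; exact nonZeroDivisors.coe_ne_zero I
  have hn1 : n ≠ 1 := fun e => hI.ne_top (Ideal.absNorm_eq_one_iff.1 e)
  have hmem : (n : 𝓞 K) ∈ (I : Ideal (𝓞 K)) := Ideal.absNorm_mem _
  have h2 : (2 : 𝓞 K) ∈ (I : Ideal (𝓞 K)) → Submodule.IsPrincipal (I : Ideal (𝓞 K)) := fun h =>
    eq_span_of_mem hI prime_piTwo (hI.mem_of_pow_mem 3 (by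
      rw [piTwo_cube, neg_mul]; exact neg_mem (Ideal.mul_mem_right _ _ h)))
  have h3 : (3 : 𝓞 K) ∈ (I : Ideal (𝓞 K)) → Submodule.IsPrincipal (I : Ideal (𝓞 K)) := fun h =>
    eq_span_of_mem hI prime_piThree (hI.mem_of_pow_mem 3 (by
      rw [piThree_cube]; exact Ideal.mul_mem_right _ _ h))
  have case : n = 2 ∨ n = 3 ∨ n = 4 ∨ n = 5 ∨ n = 6 ∨ n = 7 ∨ n = 8 := by omega
  rcases case with e | e | e | e | e | e | e <;> rw [e, Nat.cast_ofNat] at hmem
  · exact h2 hmem
  · exact h3 hmem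
  · exact h2 (hI.mem_of_pow_mem 2 (by norm_num [hmem]))
  · rw [← piFive_mul] at hmem
    rcases hI.mem_or_mem hmem with h | h
    · exact eq_span_of_mem hI prime_piFive h
    exfalso
    set Q := (I : Ideal (𝓞 K))
    have h5 : (5 : 𝓞 K) ∈ Q := piFive_mul ▸ Ideal.mul_mem_left _ _ h
    haveI : Q.IsMaximal := hI.isMaximal (nonZeroDivisors.coe_ne_zero I)
    letI : Field (𝓞 K ⧸ Q) := Ideal.Quotient.field Q
    haveI : Finite (𝓞 K ⧸ Q) := Nat.finite_of_card_ne_zero (by
      rw [← Submodule.cardQuot_apply, ← Ideal.absNorm_apply, ← hn, e]; norm_num)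
    haveI := Fintype.ofFinite (𝓞 K ⧸ Q)
    have hcard : Fintype.card (𝓞 K ⧸ Q) = 5 := by
      rw [← Nat.card_eq_fintype_card, ← Submodule.cardQuot_apply, ← Ideal.absNorm_apply, ← hn, e]
    set a := Ideal.Quotient.mk Q alphaO
    have ha : a ^ 2 + a + 1 = 0 := by
      have := Ideal.Quotient.eq_zero_iff_mem.mpr h
      simp [elO] at this
      linear_combination this
    have ha5 : (2 * a + 1) ^ 5 = 2 * a + 1 := by
      simpa [hcard] using FiniteField.pow_card (2 * a + 1)
    have hF : (5 : 𝓞 K ⧸ Q) = 0 := by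
      simpa [map_ofNat] using Ideal.Quotient.eq_zero_iff_mem.mpr h5
    have hsq : (2 * a + 1) ^ 2 = -3 := by linear_combination 4 * ha
    have hu : 8 * (2 * a + 1) = 0 := by
      linear_combination ha5 - (2 * a + 1) * ((2 * a + 1) ^ 2 - 3) * hsq
    have hu0 : 2 * a + 1 = (0 : 𝓞 K ⧸ Q) := by linear_combination 2 * hu - 3 * (2 * a + 1) * hF
    exact one_ne_zero (show (1 : 𝓞 K ⧸ Q) = 0 by
      linear_combination 2 * hsq - 2 * (2 * a + 1) * hu0 - hF)
  · rw [show (6 : 𝓞 K) = 2 * 3 by norm_num] at hmem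
    exact (hI.mem_or_mem hmem).elim h2 h3
  · set Q := (I : Ideal (𝓞 K))
    have hroots : (alphaO - 3) * (alphaO - 5) * (alphaO - 6) =
        7 * (-(2 * alphaO ^ 2) + 9 * alphaO - 12) := by linear_combination alphaO_eq
    have hprod : (alphaO - 3) * (alphaO - 5) * (alphaO - 6) ∈ Q :=
      hroots ▸ Ideal.mul_mem_right _ _ hmem
    rcases hI.mem_or_mem hprod with h | h
    · rcases hI.mem_or_mem h with h | h
      · refine eq_span_of_mem hI (prime_elO (a := -5) (b := 1) (c := 1) (n := 7) (by norm_num)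
          (by norm_num)) ?_
        rw [show elO (-5) 1 1 = (alphaO - 3) * (alphaO + 4) + 7 by simp [elO]; ring]
        exact add_mem (Ideal.mul_mem_right _ _ h) hmem
      · refine eq_span_of_mem hI (prime_elO (a := -7) (b := 2) (c := 1) (n := -7) (by norm_num)
          (by norm_num)) ?_
        rw [show elO (-7) 2 1 = (alphaO - 5) * (alphaO + 7) + 7 * 4 by simp [elO]; ring]
        exact add_mem (Ideal.mul_mem_right _ _ h) (Ideal.mul_mem_right _ _ hmem)
    · refine eq_span_of_mem hI (prime_elO (a := 1) (b := 1) (c := 0) (n := 7) (by norm_num)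
          (by norm_num)) ?_
      rw [show elO 1 1 0 = (alphaO - 6) + 7 by simp [elO]; ring]
      exact add_mem h hmem
  · exact h2 (hI.mem_of_pow_mem 3 (by norm_num [hmem]))

instance isPrincipalIdealRing_inst : IsPrincipalIdealRing (𝓞 K) := isPrincipalIdealRing_K

theorem rank_K : Units.rank K = 1 := by
  have h := InfinitePlace.card_eq_nrRealPlaces_add_nrComplexPlaces (K := K)
  rw [signature.1, signature.2] at h
  show Fintype.card (InfinitePlace K) - 1 = 1
  omega

/-! ### Units modulo cubes -/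

theorem eps_ne_cube (η : (𝓞 K)ˣ) : epsU ≠ η ^ 3 := by
  intro h
  have hπ : Prime (elO 1 1 0) := prime_elO (n := 7) (by norm_num) (by norm_num)
  set Q : Ideal (𝓞 K) := Ideal.span {elO 1 1 0}
  haveI hmax : Q.IsMaximal := ((Ideal.span_singleton_prime hπ.ne_zero).mpr hπ).isMaximal
    (by simpa [Q, Ideal.span_singleton_eq_bot] using hπ.ne_zero)
  letI : Field (𝓞 K ⧸ Q) := Ideal.Quotient.field Q
  have hcard' : Nat.card (𝓞 K ⧸ Q) = 7 := by
    rw [← Submodule.cardQuot_apply, ← Ideal.absNorm_apply, Ideal.absNorm_span_singleton, norm_elO]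
    norm_num
  haveI : Finite (𝓞 K ⧸ Q) := Nat.finite_of_card_ne_zero (by omega)
  haveI := Fintype.ofFinite (𝓞 K ⧸ Q)
  have hcard : Fintype.card (𝓞 K ⧸ Q) = 7 := by rw [← Nat.card_eq_fintype_card, hcard']
  set f := Ideal.Quotient.mk Q
  have hα : f alphaO + 1 = 0 := by
    have : f (elO 1 1 0) = 0 :=
      Ideal.Quotient.eq_zero_iff_mem.mpr (Ideal.mem_span_singleton_self _)
    simp [elO] at this
    linear_combination this
  have h7 : (7 : 𝓞 K ⧸ Q) = 0 := by
    have h6 : f alphaO ^ 3 = 6 := by rw [← map_pow, alphaO_eq, map_ofNat]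
    rw [show f alphaO = -1 from eq_neg_of_add_eq_zero_left hα] at h6
    linear_combination -h6
  have he : f (epsU : 𝓞 K) = 3 := by
    rw [show ((epsU : (𝓞 K)ˣ) : 𝓞 K) = elO 1 (-6) 3 from rfl]
    simp [elO, f, map_ofNat]
    linear_combination (3 * f alphaO - 9) * hα + h7
  have hη : f (η : 𝓞 K) ≠ 0 := fun e => hmax.ne_top (Ideal.eq_top_of_isUnit_mem _
    (Ideal.Quotient.eq_zero_iff_mem.mp e) η.isUnit)
  have h6 := FiniteField.pow_card_sub_one_eq_one (f (η : 𝓞 K)) hη
  rw [hcard, show 7 - 1 = 3 * 2 from rfl, pow_mul, ← map_pow, ← Units.val_pow_eq_pow_val, ← h,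
    he] at h6
  exact one_ne_zero (show (1 : 𝓞 K ⧸ Q) = 0 by linear_combination h6 - h7)

/-- Every unit is a power of `ε` times a cube. -/
theorem unit_eq (u : (𝓞 K)ˣ) : ∃ (i : ℕ) (η : (𝓞 K)ˣ), i < 3 ∧ u = epsU ^ i * η ^ 3 := by
  classical
  have hodd : Odd (finrank ℚ K) := by rw [finrank_K]; decide
  let q : Fin 1 ≃ Fin (Units.rank K) := finCongr rank_K.symm
  set F : (𝓞 K)ˣ := Units.fundSystem K (q 0)
  have decomp : ∀ v : (𝓞 K)ˣ, ∃ (k : ℤ) (η : (𝓞 K)ˣ), v = F ^ k * η ^ 3 := fun v => by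
    obtain ⟨⟨t, f⟩, hv, -⟩ := Units.exist_unique_eq_mul_prod K v
    refine ⟨f (q 0), (t : (𝓞 K)ˣ), ?_⟩
    have ht : ((t : (𝓞 K)ˣ)) ^ 3 = (t : (𝓞 K)ˣ) := by
      rcases Units.torsion_eq_one_or_neg_one_of_odd_finrank hodd t with h | h <;>
        simp [h, pow_three]
    rw [hv, ht, ← Equiv.prod_comp q, Fin.prod_univ_one, mul_comm]
  obtain ⟨k, η, hk⟩ := decomp epsU
  have hk3 : ¬ (3 : ℤ) ∣ k := fun ⟨j, hj⟩ => eps_ne_cube (F ^ j * η) (by
    rw [hk, hj, mul_comm 3 j, zpow_mul, mul_pow]; norm_cast)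
  obtain ⟨l, θ, hl⟩ := decomp u
  obtain ⟨i, hi, j, hij⟩ : ∃ i : ℕ, i < 3 ∧ ∃ j : ℤ, l = k * i + 3 * j := by
    have : k % 3 = 1 ∨ k % 3 = 2 := by omega
    rcases this with h | h
    · refine ⟨(l % 3).toNat, by omega, (l - k * ((l % 3).toNat : ℤ)) / 3, ?_⟩
      have : (3 : ℤ) ∣ l - k * ((l % 3).toNat : ℤ) := by
        rw [Int.toNat_of_nonneg (by omega)]
        refine ⟨l / 3 - k / 3 * (l % 3), ?_⟩
        linear_combination -(Int.emod_add_mul_ediv l 3) + (l % 3) * (Int.emod_add_mul_ediv k 3) -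
          (l % 3) * h
      linarith [Int.mul_ediv_cancel' this]
    · refine ⟨(2 * l % 3).toNat, by omega, (l - k * ((2 * l % 3).toNat : ℤ)) / 3, ?_⟩
      have : (3 : ℤ) ∣ l - k * ((2 * l % 3).toNat : ℤ) := by
        rw [Int.toNat_of_nonneg (by omega)]
        refine ⟨-l + 2 * (2 * l / 3) - k / 3 * (2 * l % 3), ?_⟩
        linear_combination -2 * (Int.emod_add_mul_ediv (2 * l) 3) +
          (2 * l % 3) * (Int.emod_add_mul_ediv k 3) - (2 * l % 3) * h
      linarith [Int.mul_ediv_cancel' this]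
  refine ⟨i, θ * η⁻¹ ^ i * F ^ j, hi, ?_⟩
  have key : ∀ a b c d : (𝓞 K)ˣ, a * b * d = a * c * (d * c⁻¹ * b) := fun a b c d => by
    rw [mul_assoc a c, mul_assoc d, mul_left_comm c d, mul_inv_cancel_left, mul_comm d b, mul_assoc]
  rw [hl, hk, hij, zpow_add, zpow_mul, mul_comm (3 : ℤ) j, zpow_mul, zpow_natCast, zpow_ofNat,
    mul_pow, mul_pow, mul_pow, inv_pow, inv_pow, ← pow_mul, ← pow_mul, mul_comm i 3]
  exact key _ _ _ _

end FA.Selmer

end
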