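import Mathlib.NumberTheory.Padics.Hensel
import Mathlib.NumberTheory.Padics.RingHoms
import Mathlib.FieldTheory.Finite.Basic
import Mathlib.Analysis.SpecialFunctions.Pow.Real
import Mathlib.Algebra.Polynomial.AlgebraMap
import Mathlib.Tactic.LinearCombination
import Mathlib.Tactic.NormNum.Prime

/-!
# Selmer's cubic is soluble everywhere locally

`3x³ + 4y³ + 5z³ = 0` has a nontrivial real solution, a primitive solution in every `ℤ_[p]`, and
so a primitive solution modulo every positive integer.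
-/

set_option autoImplicit false

noncomputable section

open Polynomial

namespace FA.Selmer

/-- In a finite field one of `2`, `3`, `5`, `3/4`, `3/5`, `4/5` is a cube, so that some equation
`A t³ + B = 0` with these coefficients has a nonzero root. -/
theorem exists_cube {F : Type*} [Field F] [Finite F] (h2 : (2 : F) ≠ 0) (h3 : (3 : F) ≠ 0)
    (h5 : (5 : F) ≠ 0) : ∃ t : F, t ≠ 0 ∧ (t ^ 3 = 2 ∨ t ^ 3 = 3 ∨ t ^ 3 = 5 ∨ 4 * t ^ 3 = 3 ∨
      5 * t ^ 3 = 3 ∨ 5 * t ^ 3 = 4) := by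
  obtain ⟨g, hg⟩ := IsCyclic.exists_generator (α := Fˣ)
  have root : ∀ {x : F}, x ≠ 0 → ∃ i : ℤ, x = ((g ^ i : Fˣ) : F) := fun {x} hx => by
    obtain ⟨i, hi⟩ := hg (Units.mk0 x hx)
    exact ⟨i, (congrArg Units.val hi).symm⟩
  obtain ⟨a, ha⟩ := root h2
  obtain ⟨b, hb⟩ := root h3
  obtain ⟨c, hc⟩ := root h5
  have cube : ∀ {k : ℤ}, (3 : ℤ) ∣ k → ∃ t : Fˣ, t ^ 3 = g ^ k := by
    rintro k ⟨j, rfl⟩
    exact ⟨g ^ j, by rw [mul_comm, zpow_mul, zpow_ofNat]⟩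
  have case : (3 : ℤ) ∣ a ∨ (3 : ℤ) ∣ b ∨ (3 : ℤ) ∣ c ∨ (3 : ℤ) ∣ b - 2 * a ∨ (3 : ℤ) ∣ b - c ∨
      (3 : ℤ) ∣ 2 * a - c := by
    have res : ∀ k : ℤ, k % 3 = 0 ∨ k % 3 = 1 ∨ k % 3 = 2 := fun k => by omega
    rcases res a with h | h | h <;> rcases res b with h' | h' | h' <;>
      rcases res c with h'' | h'' | h'' <;> omega
  rcases case with h | h | h | h | h | h <;> obtain ⟨t, ht⟩ := cube h <;>
    refine ⟨(t : F), t.ne_zero, ?_⟩
  · exact Or.inl (by rw [← Units.val_pow_eq_pow_val, ht, ← ha])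
  · exact Or.inr (Or.inl (by rw [← Units.val_pow_eq_pow_val, ht, ← hb]))
  · exact Or.inr (Or.inr (Or.inl (by rw [← Units.val_pow_eq_pow_val, ht, ← hc])))
  · refine Or.inr (Or.inr (Or.inr (Or.inl ?_)))
    rw [show (4 : F) = 2 * 2 by norm_num, ha, hb, ← Units.val_pow_eq_pow_val, ht, ← Units.val_mul,
      ← Units.val_mul, ← zpow_add, ← zpow_add, show a + a + (b - 2 * a) = b by ring]
  · refine Or.inr (Or.inr (Or.inr (Or.inr (Or.inl ?_))))
    rw [hc, hb, ← Units.val_pow_eq_pow_val, ht, ← Units.val_mul, ← zpow_add,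
      show c + (b - c) = b by ring]
  · refine Or.inr (Or.inr (Or.inr (Or.inr (Or.inr ?_))))
    rw [show (4 : F) = 2 * 2 by norm_num, hc, ha, ← Units.val_pow_eq_pow_val, ht, ← Units.val_mul,
      ← Units.val_mul, ← zpow_add, ← zpow_add, show c + (2 * a - c) = a + a by ring]

variable {p : ℕ} [hp : Fact p.Prime]

/-- Hensel's lemma for `A t³ + B`. -/
theorem exists_padic_root (A B t : ℤ)
    (h : ‖((A * t ^ 3 + B : ℤ) : ℤ_[p])‖ < ‖((3 * A * t ^ 2 : ℤ) : ℤ_[p])‖ ^ 2) :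
    ∃ z : ℤ_[p], (A : ℤ_[p]) * z ^ 3 + (B : ℤ_[p]) = 0 := by
  set F : ℤ[X] := C A * X ^ 3 + C B
  have e1 : ∀ z : ℤ_[p], F.aeval z = (A : ℤ_[p]) * z ^ 3 + (B : ℤ_[p]) := fun z => by simp [F]
  have e2 : F.derivative.aeval (t : ℤ_[p]) = ((3 * A * t ^ 2 : ℤ) : ℤ_[p]) := by
    simp [F, map_ofNat]; ring
  obtain ⟨z, hz, -⟩ := hensels_lemma (F := F) (a := (t : ℤ_[p]))
    (by rw [e1, e2]; push_cast at h ⊢; exact h)
  exact ⟨z, by rw [← e1, hz]⟩

/-- The simple roots modulo `p`. -/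
theorem exists_padic_root_of_dvd (A B t : ℤ) (h : (p : ℤ) ∣ A * t ^ 3 + B)
    (h' : ¬ (p : ℤ) ∣ 3 * A * t ^ 2) : ∃ z : ℤ_[p], (A : ℤ_[p]) * z ^ 3 + (B : ℤ_[p]) = 0 := by
  refine exists_padic_root A B t ?_
  rw [show ‖((3 * A * t ^ 2 : ℤ) : ℤ_[p])‖ = 1 from le_antisymm (PadicInt.norm_le_one _)
    (not_lt.mp fun hlt => h' (PadicInt.norm_intCast_lt_one_iff.mp hlt)), one_pow]
  exact PadicInt.norm_intCast_lt_one_iff.mpr h

end FA.Selmer

namespace FA.Summary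

open FA.Selmer

/-- **Selmer's cubic has a nontrivial real solution.** -/
theorem selmer_real : ∃ x y z : ℝ, (x, y, z) ≠ (0, 0, 0) ∧
    3 * x ^ 3 + 4 * y ^ 3 + 5 * z ^ 3 = 0 := by
  obtain ⟨t, ht⟩ : ∃ t : ℝ, t ^ 3 = 5 / 3 :=
    ⟨(5 / 3 : ℝ) ^ (3⁻¹ : ℝ), by rw [← Real.rpow_natCast, ← Real.rpow_mul] <;> norm_num⟩
  exact ⟨t, 0, -1, by simp, by linear_combination 3 * ht⟩

/-- **Selmer's cubic has a primitive solution in every `ℤ_[p]`.** -/
theorem selmer_padic (p : ℕ) [hp : Fact p.Prime] : ∃ x y z : ℤ_[p],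
    (IsUnit x ∨ IsUnit y ∨ IsUnit z) ∧ 3 * x ^ 3 + 4 * y ^ 3 + 5 * z ^ 3 = 0 := by
  by_cases h2 : p = 2
  · subst h2
    obtain ⟨t, ht⟩ := exists_padic_root_of_dvd (p := 2) 3 5 1 (by norm_num) (by norm_num)
    exact ⟨t, 0, 1, by simp, by push_cast at ht; linear_combination ht⟩
  by_cases h3 : p = 3
  · subst h3
    have h16 : ‖((16 : ℤ) : ℤ_[3])‖ = 1 := le_antisymm (PadicInt.norm_le_one _)
      (not_lt.mp fun hlt => absurd (PadicInt.norm_intCast_lt_one_iff.mp hlt) (by norm_num))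
    obtain ⟨t, ht⟩ := exists_padic_root (p := 3) 4 5 (-2) (by
      rw [show (4 * (-2 : ℤ) ^ 3 + 5) = -(((3 : ℕ) : ℤ) ^ 3) by norm_num,
        show (3 * 4 * (-2 : ℤ) ^ 2) = ((3 : ℕ) : ℤ) * 16 by norm_num, Int.cast_neg, Int.cast_pow,
        Int.cast_mul, Int.cast_natCast, norm_neg, norm_pow, norm_mul, PadicInt.norm_p, h16]
      norm_num)
    exact ⟨0, t, 1, by simp, by push_cast at ht; linear_combination ht⟩
  by_cases h5 : p = 5
  · subst h5
    obtain ⟨t, ht⟩ := exists_padic_root_of_dvd (p := 5) 3 4 3 (by norm_num) (by norm_num)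
    exact ⟨t, 1, 0, by simp, by push_cast at ht; linear_combination ht⟩
  have hne : ∀ q : ℕ, q.Prime → p ≠ q → ((q : ℤ) : ZMod p) ≠ 0 := fun q hq hpq he => hpq <| by
    rw [Int.cast_natCast, ZMod.natCast_eq_zero_iff] at he
    exact (Nat.prime_dvd_prime_iff_eq hp.out hq).mp he
  have n2 : (2 : ZMod p) ≠ 0 := by simpa using hne 2 Nat.prime_two h2
  have n3 : (3 : ZMod p) ≠ 0 := by simpa using hne 3 Nat.prime_three h3
  have n5 : (5 : ZMod p) ≠ 0 := by simpa using hne 5 Nat.prime_five h5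
  obtain ⟨t, ht0, ht⟩ := exists_cube n2 n3 n5
  have lift : ∀ A B : ℤ, (A : ZMod p) ≠ 0 → (A : ZMod p) * t ^ 3 + (B : ZMod p) = 0 →
      ∃ z : ℤ_[p], (A : ℤ_[p]) * z ^ 3 + (B : ℤ_[p]) = 0 := fun A B hA hroot => by
    obtain ⟨k, rfl⟩ := ZMod.intCast_surjective t
    refine exists_padic_root_of_dvd A B k ?_ ?_
    · exact (ZMod.intCast_zmod_eq_zero_iff_dvd _ p).mp (by push_cast; exact hroot)
    · rw [← ZMod.intCast_zmod_eq_zero_iff_dvd]
      push_cast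
      exact mul_ne_zero (mul_ne_zero n3 hA) (pow_ne_zero _ ht0)
  rcases ht with h | h | h | h | h | h
  · -- `3 - 5 + 4 y³ = 0` for `y = 1 / t`
    obtain ⟨z, hz⟩ := lift 1 (-2) (by simp) (by push_cast; linear_combination h)
    have hzu : IsUnit z := isUnit_of_dvd_unit (x := z) ⟨z ^ 2, rfl⟩ (by
      rw [show z * z ^ 2 = 2 by push_cast at hz; linear_combination hz]
      rw [PadicInt.isUnit_iff]
      exact le_antisymm (PadicInt.norm_le_one _) (not_lt.mp fun hlt => n2 <| by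
        have := (ZMod.intCast_zmod_eq_zero_iff_dvd _ p).mpr
          (PadicInt.norm_intCast_lt_one_iff.mp (show ‖((2 : ℤ) : ℤ_[p])‖ < 1 by exact_mod_cast hlt))
        simpa using this))
    exact ⟨z, 1, -z, Or.inr (Or.inl isUnit_one), by push_cast at hz; linear_combination -2 * hz⟩
  · obtain ⟨z, hz⟩ := lift 1 (-3) (by simp) (by push_cast; linear_combination h)
    exact ⟨-z, 1, 1, Or.inr (Or.inl isUnit_one), by push_cast at hz; linear_combination -3 * hz⟩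
  · obtain ⟨z, hz⟩ := lift 1 (-5) (by simp) (by push_cast; linear_combination h)
    exact ⟨z, -z, 1, Or.inr (Or.inr isUnit_one), by push_cast at hz; linear_combination -hz⟩
  · obtain ⟨z, hz⟩ := lift 4 (-3) (by push_cast; rw [show (4 : ZMod p) = 2 * 2 by norm_num]
                                      exact mul_ne_zero n2 n2) (by push_cast; linear_combination h)
    exact ⟨-1, z, 0, Or.inl isUnit_one.neg, by push_cast at hz; linear_combination hz⟩
  · obtain ⟨z, hz⟩ := lift 5 (-3) (by simpa using n5) (by push_cast; linear_combination h)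
    exact ⟨-1, 0, z, Or.inl isUnit_one.neg, by push_cast at hz; linear_combination hz⟩
  · obtain ⟨z, hz⟩ := lift 5 (-4) (by simpa using n5) (by push_cast; linear_combination h)
    exact ⟨0, -1, z, Or.inr (Or.inl isUnit_one.neg), by push_cast at hz; linear_combination hz⟩

/-- **Selmer's cubic has a primitive solution modulo every positive integer.** -/
theorem selmer_mod : ∀ m : ℕ, 0 < m → ∃ x y z : ℤ,
    (m : ℤ) ∣ 3 * x ^ 3 + 4 * y ^ 3 + 5 * z ^ 3 ∧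
      ∀ q : ℕ, q.Prime → q ∣ m → ¬ ((q : ℤ) ∣ x ∧ (q : ℤ) ∣ y ∧ (q : ℤ) ∣ z) := by
  intro m
  induction m using Nat.recOnPrimeCoprime with
  | zero => simp
  | prime_pow p k hp =>
    intro _
    have := Fact.mk hp
    obtain ⟨X, Y, Z, hu, h⟩ := selmer_padic p
    obtain ⟨x, hx⟩ := ZMod.intCast_surjective (PadicInt.toZModPow (k + 1) X)
    obtain ⟨y, hy⟩ := ZMod.intCast_surjective (PadicInt.toZModPow (k + 1) Y)
    obtain ⟨z, hz⟩ := ZMod.intCast_surjective (PadicInt.toZModPow (k + 1) Z)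
    refine ⟨x, y, z, ?_, ?_⟩
    · refine dvd_trans (by push_cast; exact pow_dvd_pow _ k.le_succ)
        ((ZMod.intCast_zmod_eq_zero_iff_dvd _ (p ^ (k + 1))).mp ?_)
      push_cast
      rw [hx, hy, hz]
      have e := congrArg (PadicInt.toZModPow (k + 1)) h
      simpa only [map_add, map_mul, map_pow, map_ofNat, map_zero] using e
    · intro q hq hqm hall
      obtain rfl : q = p := (Nat.prime_dvd_prime_iff_eq hq hp).mp (hq.dvd_of_dvd_pow hqm)
      have key : ∀ (w : ℤ) (W : ℤ_[q]), (w : ZMod (q ^ (k + 1))) = PadicInt.toZModPow (k + 1) W →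
          (q : ℤ) ∣ w → ¬ IsUnit W := fun w W e hd hW => by
        have hw : IsUnit (w : ZMod (q ^ (k + 1))) := e ▸ hW.map _
        have : Fact (1 < q ^ (k + 1)) := ⟨Nat.one_lt_pow k.succ_ne_zero hq.one_lt⟩
        obtain ⟨w', rfl⟩ := hd
        push_cast at hw
        have h0 : IsUnit (((q : ZMod (q ^ (k + 1)))) ^ (k + 1)) :=
          (isUnit_of_mul_isUnit_left hw).pow _
        rw [← Nat.cast_pow, ZMod.natCast_self] at h0
        exact not_isUnit_zero h0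
      rcases hu with hu | hu | hu
      · exact key x X hx hall.1 hu
      · exact key y Y hy hall.2.1 hu
      · exact key z Z hz hall.2.2 hu
  | coprime a b ha hb hab iha ihb =>
    intro _
    obtain ⟨x₁, y₁, z₁, h₁, p₁⟩ := iha (by omega)
    obtain ⟨x₂, y₂, z₂, h₂, p₂⟩ := ihb (by omega)
    obtain ⟨u, v, huv⟩ := Nat.isCoprime_iff_coprime.mpr hab
    have ga : ∀ w₁ w₂ : ℤ, ((a : ℤ)) ∣ (w₁ * v * b + w₂ * u * a) - w₁ := fun w₁ w₂ =>
      ⟨u * (w₂ - w₁), by linear_combination w₁ * huv⟩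
    have gb : ∀ w₁ w₂ : ℤ, ((b : ℤ)) ∣ (w₁ * v * b + w₂ * u * a) - w₂ := fun w₁ w₂ =>
      ⟨v * (w₁ - w₂), by linear_combination w₂ * huv⟩
    set X := x₁ * v * b + x₂ * u * a
    set Y := y₁ * v * b + y₂ * u * a
    set Z := z₁ * v * b + z₂ * u * a
    have transfer : ∀ (n : ℤ) (x' y' z' : ℤ), n ∣ X - x' → n ∣ Y - y' → n ∣ Z - z' →
        n ∣ 3 * x' ^ 3 + 4 * y' ^ 3 + 5 * z' ^ 3 → n ∣ 3 * X ^ 3 + 4 * Y ^ 3 + 5 * Z ^ 3 :=
      fun n x' y' z' dx dy dz hd => by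
        refine (dvd_iff_dvd_of_dvd_sub ?_).mpr hd
        rw [show 3 * X ^ 3 + 4 * Y ^ 3 + 5 * Z ^ 3 - (3 * x' ^ 3 + 4 * y' ^ 3 + 5 * z' ^ 3) =
          3 * (X ^ 3 - x' ^ 3) + 4 * (Y ^ 3 - y' ^ 3) + 5 * (Z ^ 3 - z' ^ 3) by ring]
        refine dvd_add (dvd_add ?_ ?_) ?_ <;> refine dvd_mul_of_dvd_right (dvd_trans ?_ (sub_dvd_pow_sub_pow _ _ 3)) _
        exacts [dx, dy, dz]
    refine ⟨X, Y, Z, ?_, fun q hq hqm hall => ?_⟩
    · push_cast
      exact (Nat.isCoprime_iff_coprime.mpr hab).mul_dvd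
        (transfer a x₁ y₁ z₁ (ga _ _) (ga _ _) (ga _ _) h₁)
        (transfer b x₂ y₂ z₂ (gb _ _) (gb _ _) (gb _ _) h₂)
    · rcases (Nat.Prime.dvd_mul hq).mp hqm with hd | hd
      · have e : ((q : ℤ)) ∣ (a : ℤ) := Int.natCast_dvd_natCast.mpr hd
        exact p₁ q hq hd ⟨(dvd_iff_dvd_of_dvd_sub (e.trans (ga _ _))).mp hall.1,
          (dvd_iff_dvd_of_dvd_sub (e.trans (ga _ _))).mp hall.2.1,
          (dvd_iff_dvd_of_dvd_sub (e.trans (ga _ _))).mp hall.2.2⟩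
      · have e : ((q : ℤ)) ∣ (b : ℤ) := Int.natCast_dvd_natCast.mpr hd
        exact p₂ q hq hd ⟨(dvd_iff_dvd_of_dvd_sub (e.trans (gb _ _))).mp hall.1,
          (dvd_iff_dvd_of_dvd_sub (e.trans (gb _ _))).mp hall.2.1,
          (dvd_iff_dvd_of_dvd_sub (e.trans (gb _ _))).mp hall.2.2⟩

end FA.Summary

end
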